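import Mathlib

/-!
# S37 / [ES] E-c (helper758): multiset separation by characters  (Mathlib-only)

"Brauer–Nesbitt for characters", valid over every field (any characteristic, finite fields
included):

* `eq_of_forall_map_eval_eq` : two finite multisets `S`, `S'` of monoid homomorphisms `G →* k`
  such that for every `g : G` the multisets of values `{χ g | χ ∈ S}` and `{χ g | χ ∈ S'}` coincide,
  are equal.
* `eq_of_forall_prod_X_sub_C_eq` : the same with the hypothesis in polynomial form
  `∏_{χ ∈ S} (X - χ g) = ∏_{χ ∈ S'} (X - χ g)`.
* `multiset_eq_of_forall_map_eq`, `multiset_eq_of_forall_prod_eq` : the same for multisets of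
  points `x : X` with a family of characters `val x : G →* k` which is injective on the points
  involved.

No single separating element `g` is needed (over a finite prime field there is none in general),
and `G` only has to be closed under multiplication.  Proof: the traces agree, so by Dedekind's
independence of characters the multiplicities agree in `k`; after cancelling the common part all
multiplicities are divisible by the characteristic `p`, and one divides by `p` and inducts.
-/

set_option autoImplicit false

namespace Fermat.Agent.S37.H758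

open Polynomial

variable {G k : Type*} [Monoid G] [Field k]

/-- If the value multisets agree for all `g`, the multiplicities agree in `k`
(traces + Dedekind's independence of characters). -/
theorem count_cast_eq_of_forall_map_eval_eq [DecidableEq (G →* k)] (S S' : Multiset (G →* k))
    (h : ∀ g : G, S.map (fun χ => χ g) = S'.map (fun χ => χ g)) (χ : G →* k) :
    ((S.count χ : ℕ) : k) = ((S'.count χ : ℕ) : k) := by
  classical
  set U : Finset (G →* k) := S.toFinset ∪ S'.toFinset with hU
  have hsum : ∀ (R : Multiset (G →* k)), R.toFinset ⊆ U → ∀ g : G,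
      (R.map (fun χ => χ g)).sum = ∑ ψ ∈ U, ((R.count ψ : ℕ) : k) * ψ g := by
    intro R hR g
    rw [Finset.sum_multiset_map_count]
    rw [← Finset.sum_subset hR]
    · refine Finset.sum_congr rfl fun ψ _ => ?_
      rw [nsmul_eq_mul]
    · intro ψ _ hψ
      rw [Multiset.mem_toFinset] at hψ
      rw [Multiset.count_eq_zero_of_notMem hψ, Nat.cast_zero, zero_mul]
  have hlin : ∑ ψ ∈ U, (((S.count ψ : ℕ) : k) - ((S'.count ψ : ℕ) : k)) • (ψ : G → k) = 0 := by
    funext g
    rw [Finset.sum_apply, Pi.zero_apply]
    have h1 := hsum S Finset.subset_union_left g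
    have h2 := hsum S' Finset.subset_union_right g
    have h3 : ∑ ψ ∈ U, ((S.count ψ : ℕ) : k) * ψ g = ∑ ψ ∈ U, ((S'.count ψ : ℕ) : k) * ψ g := by
      rw [← h1, ← h2, h g]
    simp only [Pi.smul_apply, smul_eq_mul, sub_mul, Finset.sum_sub_distrib]
    rw [h3, sub_self]
  have hLI := linearIndependent_monoidHom G k
  rw [linearIndependent_iff'] at hLI
  by_cases hχ : χ ∈ U
  · have := hLI U (fun ψ => ((S.count ψ : ℕ) : k) - ((S'.count ψ : ℕ) : k)) hlin χ hχ
    exact sub_eq_zero.mp this
  · rw [hU, Finset.mem_union, not_or, Multiset.mem_toFinset, Multiset.mem_toFinset] at hχ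
    rw [Multiset.count_eq_zero_of_notMem hχ.1, Multiset.count_eq_zero_of_notMem hχ.2]

/-- **Brauer–Nesbitt for characters**: two finite multisets of characters `G →* k` with the same
multiset of values at every `g : G` are equal. -/
theorem eq_of_forall_map_eval_eq (S S' : Multiset (G →* k))
    (h : ∀ g : G, S.map (fun χ => χ g) = S'.map (fun χ => χ g)) : S = S' := by
  classical
  induction hn : Multiset.card S using Nat.strong_induction_on generalizing S S' with
  | _ n ih =>
  have hcard : Multiset.card S = Multiset.card S' := by
    have := congrArg Multiset.card (h 1)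
    simpa using this
  set T := S ∩ S' with hT
  have hS : S - T + T = S := Multiset.sub_add_cancel Multiset.inter_le_left
  have hS' : S' - T + T = S' := Multiset.sub_add_cancel Multiset.inter_le_right
  have h₁ : ∀ g, (S - T).map (fun χ => χ g) = (S' - T).map (fun χ => χ g) := by
    intro g
    have := h g
    rw [← hS, ← hS', Multiset.map_add, Multiset.map_add] at this
    exact add_right_cancel this
  by_cases hT0 : T = 0
  · -- `S` and `S'` are disjoint
    by_cases hS0 : S = 0
    · subst hS0
      rw [Multiset.card_zero] at hcard
      exact (Multiset.card_eq_zero.mp hcard.symm).symm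
    have hmin : ∀ χ, min (S.count χ) (S'.count χ) = 0 := by
      intro χ
      rw [← Multiset.count_inter, ← hT, hT0, Multiset.count_zero]
    have hcast := count_cast_eq_of_forall_map_eval_eq S S' h
    set p := ringChar k with hp
    have hchar : CharP k p := ringChar.charP k
    have hdvd : ∀ χ, p ∣ S.count χ ∧ p ∣ S'.count χ := by
      intro χ
      have hc := hcast χ
      rcases Nat.min_eq_zero_iff.mp (hmin χ) with h0 | h0
      · rw [h0, Nat.cast_zero] at hc
        exact ⟨h0 ▸ dvd_zero p, (CharP.cast_eq_zero_iff k p _).mp hc.symm⟩
      · rw [h0, Nat.cast_zero] at hc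
        exact ⟨(CharP.cast_eq_zero_iff k p _).mp hc, h0 ▸ dvd_zero p⟩
    obtain ⟨χ₀, hχ₀⟩ := Multiset.exists_mem_of_ne_zero hS0
    have hp0 : p ≠ 0 := by
      intro h0
      have := (hdvd χ₀).1
      rw [h0, zero_dvd_iff] at this
      exact (Multiset.count_pos.mpr hχ₀).ne' this
    have hp1 : p ≠ 1 := CharP.ringChar_ne_one
    have hp2 : 2 ≤ p := by omega
    -- divide by `p`
    have hdiv : ∀ R : Multiset (G →* k), (∀ χ, p ∣ R.count χ) →
        R = p • ∑ χ ∈ R.toFinset, (R.count χ / p) • ({χ} : Multiset (G →* k)) := by
      intro R hR
      conv_lhs => rw [← Multiset.toFinset_sum_count_nsmul_eq R]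
      rw [Finset.smul_sum]
      refine Finset.sum_congr rfl fun χ _ => ?_
      rw [← mul_smul, Nat.mul_div_cancel' (hR χ)]
    set V := ∑ χ ∈ S.toFinset, (S.count χ / p) • ({χ} : Multiset (G →* k)) with hV
    set V' := ∑ χ ∈ S'.toFinset, (S'.count χ / p) • ({χ} : Multiset (G →* k)) with hV'
    have hSV : S = p • V := hdiv S fun χ => (hdvd χ).1
    have hSV' : S' = p • V' := hdiv S' fun χ => (hdvd χ).2
    have hVV' : ∀ g, V.map (fun χ => χ g) = V'.map (fun χ => χ g) := by
      intro g
      have := h g
      rw [hSV, hSV', Multiset.map_nsmul, Multiset.map_nsmul] at this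
      ext a
      have hc := congrArg (Multiset.count a) this
      rw [Multiset.count_nsmul, Multiset.count_nsmul] at hc
      exact Nat.eq_of_mul_eq_mul_left (Nat.pos_of_ne_zero hp0) hc
    have hcardV : Multiset.card V < n := by
      have hc : Multiset.card S = p * Multiset.card V := by
        conv_lhs => rw [hSV]
        rw [Multiset.card_nsmul]
      have hpos : 0 < Multiset.card S := Multiset.card_pos.mpr hS0
      rw [← hn, hc]
      rw [hc] at hpos
      have hVpos : 0 < Multiset.card V := Nat.pos_of_mul_pos_left hpos
      calc Multiset.card V = 1 * Multiset.card V := (one_mul _).symm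
        _ < p * Multiset.card V := Nat.mul_lt_mul_of_pos_right (by omega) hVpos
    have := ih _ hcardV V V' hVV' rfl
    rw [hSV, hSV', this]
  · have hlt : Multiset.card (S - T) < n := by
      have hc : Multiset.card (S - T) + Multiset.card T = Multiset.card S := by
        rw [← Multiset.card_add, hS]
      have hTpos : 0 < Multiset.card T := Multiset.card_pos.mpr hT0
      omega
    have := ih _ hlt (S - T) (S' - T) h₁ rfl
    rw [← hS, ← hS', this]

/-- Polynomial form of `eq_of_forall_map_eval_eq`. -/
theorem eq_of_forall_prod_X_sub_C_eq (S S' : Multiset (G →* k))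
    (h : ∀ g : G, (S.map fun χ => (X - C (χ g) : k[X])).prod =
      (S'.map fun χ => (X - C (χ g) : k[X])).prod) : S = S' := by
  refine eq_of_forall_map_eval_eq S S' fun g => ?_
  have h1 : ∀ R : Multiset (G →* k),
      (R.map fun χ => (X - C (χ g) : k[X])).prod.roots = R.map (fun χ => χ g) := by
    intro R
    have : (R.map fun χ => (X - C (χ g) : k[X])) =
        (R.map (fun χ => χ g)).map (fun a => (X - C a : k[X])) := by
      rw [Multiset.map_map]
      rfl
    rw [this, roots_multiset_prod_X_sub_C]
  rw [← h1 S, ← h1 S', h g]

section Points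

variable {X : Type*}

/-- Multiset separation for points: if the characters `val x` are pairwise distinct on the points
of `S` and `S'` and all value multisets agree, then `S = S'`. -/
theorem multiset_eq_of_forall_map_eq (val : X → G →* k) (S S' : Multiset X)
    (hinj : ∀ x ∈ S + S', ∀ y ∈ S + S', val x = val y → x = y)
    (h : ∀ g : G, S.map (fun x => val x g) = S'.map (fun x => val x g)) : S = S' := by
  classical
  have hmap : S.map val = S'.map val := by
    refine eq_of_forall_map_eval_eq _ _ fun g => ?_
    rw [Multiset.map_map, Multiset.map_map]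
    exact h g
  have hcount : ∀ (R : Multiset X), R ≤ S + S' → ∀ x ∈ S + S',
      (R.map val).count (val x) = R.count x := by
    intro R hR x hx
    by_cases hxR : x ∈ R
    · refine Multiset.count_map_eq_count val R ?_ x hxR
      intro a ha b hb hab
      exact hinj a (Multiset.mem_of_le hR ha) b (Multiset.mem_of_le hR hb) hab
    · rw [Multiset.count_eq_zero_of_notMem hxR, Multiset.count_eq_zero]
      intro hmem
      obtain ⟨y, hy, hyx⟩ := Multiset.mem_map.mp hmem
      exact hxR ((hinj y (Multiset.mem_of_le hR hy) x hx hyx) ▸ hy)
  ext x
  by_cases hx : x ∈ S + S'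
  · rw [← hcount S (Multiset.le_add_right S S') x hx,
      ← hcount S' (Multiset.le_add_left S' S) x hx, hmap]
  · rw [Multiset.mem_add, not_or] at hx
    rw [Multiset.count_eq_zero_of_notMem hx.1, Multiset.count_eq_zero_of_notMem hx.2]

/-- Polynomial form of `multiset_eq_of_forall_map_eq`. -/
theorem multiset_eq_of_forall_prod_eq (val : X → G →* k) (S S' : Multiset X)
    (hinj : ∀ x ∈ S + S', ∀ y ∈ S + S', val x = val y → x = y)
    (h : ∀ g : G, (S.map fun x => (Polynomial.X - C (val x g) : k[X])).prod =
      (S'.map fun x => (Polynomial.X - C (val x g) : k[X])).prod) : S = S' := by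
  refine multiset_eq_of_forall_map_eq val S S' hinj fun g => ?_
  have h1 : ∀ R : Multiset X,
      (R.map fun x => (Polynomial.X - C (val x g) : k[X])).prod.roots =
        R.map (fun x => val x g) := by
    intro R
    have : (R.map fun x => (Polynomial.X - C (val x g) : k[X])) =
        (R.map (fun x => val x g)).map (fun a => (Polynomial.X - C a : k[X])) := by
      rw [Multiset.map_map]
      rfl
    rw [this, roots_multiset_prod_X_sub_C]
  rw [← h1 S, ← h1 S', h g]

end Points

end Fermat.Agent.S37.H758
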