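import Fermat.Agent.S37.Core.Geo
import Fermat.Agent.S37.H758.CharSep

/-!
# S37 / [ES] E-c (helper758): multiset separation for `GeoRed`

`msep_fin` : let `G : GeoRed A N` and let `S`, `S'` be finite multisets of places of the special
fibre `F_k` at which every `f̄` (`f` integral over `A[j]`) has a value.  If for every such `f`
the multisets of values `{f̄(Q) | Q ∈ S}` and `{f̄(Q) | Q ∈ S'}` coincide, then `S = S'`.
`msep_inf` : the same on the chart at infinity (`f` integral over `A[j⁻¹]`).
`msep_fin_prod`, `msep_inf_prod` : hypothesis in polynomial form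
`∏_{Q ∈ S} (X - f̄(Q)) = ∏_{Q ∈ S'} (X - f̄(Q))`.

The proof is `multiset_eq_of_forall_map_eq` (Brauer–Nesbitt for characters, `CharSep.lean`)
applied to the multiplicative monoid of integral elements and the characters `f ↦ f̄(Q)`;
injectivity of `Q ↦ (f ↦ f̄(Q))` is `GeoRed.sep_fin` / `GeoRed.sep_inf`.

Also: basic calculus of `Core.HasValue` (`hasValue_unique`, `hasValue_mul`, `hasValue_add`, ...).
-/

set_option autoImplicit false
set_option synthInstance.maxHeartbeats 400000

noncomputable section

namespace Fermat.Agent.S37.H758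

open ModularCurve ValuationSubring AlgebraicCurve HahnSeries Fermat.Agent.S37.Core

/-! ### Calculus of values at a place -/

section HasValue

variable {K F : Type*} [Field K] [Field F] [Algebra K F] (P : Place K F)

theorem hasValue_iff {f : F} {b : K} :
    HasValue P f b ↔ P.toValuationSubring.valuation (f - algebraMap K F b) < 1 :=
  ValuationSubring.mem_nonunits_iff _

theorem valuation_algebraMap_le_one (a : K) :
    P.toValuationSubring.valuation (algebraMap K F a) ≤ 1 :=
  (P.toValuationSubring.valuation_le_one_iff _).mpr (P.algebraMap_mem' a)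

theorem valuation_algebraMap_eq_one {a : K} (ha : a ≠ 0) :
    P.toValuationSubring.valuation (algebraMap K F a) = 1 := by
  refine le_antisymm (valuation_algebraMap_le_one P a) ?_
  have h1 := valuation_algebraMap_le_one P a⁻¹
  have h2 : P.toValuationSubring.valuation (algebraMap K F a) *
      P.toValuationSubring.valuation (algebraMap K F a⁻¹) = 1 := by
    rw [← map_mul, ← map_mul, mul_inv_cancel₀ ha, map_one, map_one]
  calc (1 : _) = P.toValuationSubring.valuation (algebraMap K F a) *
        P.toValuationSubring.valuation (algebraMap K F a⁻¹) := h2.symm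
    _ ≤ P.toValuationSubring.valuation (algebraMap K F a) * 1 := by gcongr
    _ = _ := mul_one _

theorem HasValue.mem {f : F} {b : K} (h : HasValue P f b) : f ∈ P.toValuationSubring := by
  have h1 : f - algebraMap K F b ∈ P.toValuationSubring :=
    (P.toValuationSubring.valuation_le_one_iff _).mp ((hasValue_iff P).mp h).le
  have := add_mem h1 (P.algebraMap_mem' b)
  simpa using this

theorem HasValue.valuation_le_one {f : F} {b : K} (h : HasValue P f b) :
    P.toValuationSubring.valuation f ≤ 1 :=
  (P.toValuationSubring.valuation_le_one_iff _).mpr (HasValue.mem P h)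

theorem hasValue_algebraMap (b : K) : HasValue P (algebraMap K F b) b := by
  rw [hasValue_iff, sub_self, map_zero]
  exact zero_lt_one

theorem hasValue_one : HasValue P (1 : F) (1 : K) := by
  have := hasValue_algebraMap P (1 : K)
  rwa [map_one] at this

theorem hasValue_zero : HasValue P (0 : F) (0 : K) := by
  have := hasValue_algebraMap P (0 : K)
  rwa [map_zero] at this

theorem HasValue.add {f g : F} {a b : K} (hf : HasValue P f a) (hg : HasValue P g b) :
    HasValue P (f + g) (a + b) := by
  rw [hasValue_iff] at hf hg ⊢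
  have : f + g - algebraMap K F (a + b) = (f - algebraMap K F a) + (g - algebraMap K F b) := by
    rw [map_add]; ring
  rw [this]
  exact lt_of_le_of_lt (Valuation.map_add _ _ _) (max_lt hf hg)

theorem HasValue.neg {f : F} {a : K} (hf : HasValue P f a) : HasValue P (-f) (-a) := by
  rw [hasValue_iff] at hf ⊢
  have : -f - algebraMap K F (-a) = -(f - algebraMap K F a) := by
    rw [map_neg]; ring
  rw [this, Valuation.map_neg]
  exact hf

theorem HasValue.sub {f g : F} {a b : K} (hf : HasValue P f a) (hg : HasValue P g b) :
    HasValue P (f - g) (a - b) := by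
  rw [sub_eq_add_neg, sub_eq_add_neg]
  exact HasValue.add P hf (HasValue.neg P hg)

theorem HasValue.mul {f g : F} {a b : K} (hf : HasValue P f a) (hg : HasValue P g b) :
    HasValue P (f * g) (a * b) := by
  have hg1 := HasValue.valuation_le_one P hg
  rw [hasValue_iff] at hf hg ⊢
  have : f * g - algebraMap K F (a * b) =
      (f - algebraMap K F a) * g + algebraMap K F a * (g - algebraMap K F b) := by
    rw [map_mul]; ring
  rw [this]
  refine lt_of_le_of_lt (Valuation.map_add _ _ _) (max_lt ?_ ?_)
  · rw [map_mul]
    calc P.toValuationSubring.valuation (f - algebraMap K F a) *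
          P.toValuationSubring.valuation g
        ≤ P.toValuationSubring.valuation (f - algebraMap K F a) * 1 := by gcongr
      _ = P.toValuationSubring.valuation (f - algebraMap K F a) := mul_one _
      _ < 1 := hf
  · rw [map_mul]
    calc P.toValuationSubring.valuation (algebraMap K F a) *
          P.toValuationSubring.valuation (g - algebraMap K F b)
        ≤ 1 * P.toValuationSubring.valuation (g - algebraMap K F b) := by
          gcongr
          exact valuation_algebraMap_le_one P a
      _ = P.toValuationSubring.valuation (g - algebraMap K F b) := one_mul _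
      _ < 1 := hg

/-- the value of a function at a place is unique -/
theorem hasValue_unique {f : F} {a b : K} (ha : HasValue P f a) (hb : HasValue P f b) :
    a = b := by
  by_contra hne
  have h := HasValue.sub P hb ha
  rw [sub_self, hasValue_iff, zero_sub, Valuation.map_neg,
    valuation_algebraMap_eq_one P (sub_ne_zero.mpr (Ne.symm hne))] at h
  exact lt_irrefl _ h

end HasValue

/-! ### The monoids of integral elements -/

section Monoid

variable (A : ValuationSubring (AlgebraicClosure ℚ)) (N : ℕ)

/-- `q`-series over `A` lying in `F`, with reduction in `F_k`, integral over `A[u]`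
(`u = j` for the finite chart, `u = j⁻¹` for the chart at infinity). -/
def intMonoid (u : LaurentSeries A) : Submonoid (LaurentSeries A) where
  carrier := {y | coeffMap A.subtype y ∈ modularFunctionFieldBar N ∧
    coeffMap (IsLocalRing.residue A) y ∈
      modularFunctionFieldFullC (IsLocalRing.ResidueField A) N ∧
    (evalSeries A u).IsIntegralElem y}
  mul_mem' := by
    rintro x y ⟨hx1, hx2, hx3⟩ ⟨hy1, hy2, hy3⟩
    refine ⟨?_, ?_, RingHom.IsIntegralElem.mul _ hx3 hy3⟩
    · rw [map_mul]; exact mul_mem hx1 hy1
    · rw [map_mul]; exact mul_mem hx2 hy2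
  one_mem' := by
    refine ⟨?_, ?_, (evalSeries A u).isIntegralElem_one⟩
    · rw [map_one]; exact one_mem _
    · rw [map_one]; exact one_mem _

variable {A N}

/-- the `IntElt` of an element of `intMonoid` -/
def intMonoid.elt {u : LaurentSeries A} (y : intMonoid A N u) : IntElt A N :=
  ⟨y.1, y.2.1, y.2.2.1⟩

@[simp] theorem intMonoid.elt_y {u : LaurentSeries A} (y : intMonoid A N u) :
    (intMonoid.elt y).y = y.1 := rfl

theorem intMonoid.elt_isFin (y : intMonoid A N (jqModC A)) : (intMonoid.elt y).IsFin :=
  y.2.2.2

theorem intMonoid.elt_isInf {u : LaurentSeries A} (hu : u * jqModC A = 1)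
    (y : intMonoid A N u) : (intMonoid.elt y).IsInf :=
  ⟨u, hu, y.2.2.2⟩

theorem intMonoid.mem_of_isFin {c : IntElt A N} (hc : c.IsFin) :
    c.y ∈ intMonoid A N (jqModC A) :=
  ⟨c.mem, c.memk, hc⟩

theorem intMonoid.mem_of_isInf {u : LaurentSeries A} (hu : u * jqModC A = 1) {c : IntElt A N}
    (hc : c.IsInf) : c.y ∈ intMonoid A N u := by
  obtain ⟨u', hu', hp⟩ := hc
  have huu : u' = u := by
    calc u' = u' * (jqModC A * u) := by rw [mul_comm (jqModC A) u, hu, mul_one]
      _ = (u' * jqModC A) * u := by ring
      _ = u := by rw [hu', one_mul]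
  subst huu
  exact ⟨c.mem, c.memk, hp⟩

theorem intMonoid.elt_sp_mul {u : LaurentSeries A} (x y : intMonoid A N u) :
    (intMonoid.elt (x * y)).sp = (intMonoid.elt x).sp * (intMonoid.elt y).sp := by
  apply Subtype.ext
  show coeffMap (IsLocalRing.residue A) (x.1 * y.1) = _
  rw [map_mul]
  rfl

theorem intMonoid.elt_sp_one {u : LaurentSeries A} :
    (intMonoid.elt (1 : intMonoid A N u)).sp = 1 := by
  apply Subtype.ext
  show coeffMap (IsLocalRing.residue A) (1 : LaurentSeries A) = _
  rw [map_one]
  rfl

end Monoid

/-! ### Multiset separation -/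

section Msep

variable {A : ValuationSubring (AlgebraicClosure ℚ)} {N : ℕ}

local notation "kA" => IsLocalRing.ResidueField A
local notation "PlK" => Place (IsLocalRing.ResidueField A)
  (modularFunctionFieldFullC (IsLocalRing.ResidueField A) N)

open Classical in
/-- the character "value at `Q`" on a monoid of integral elements (trivial character if some
value does not exist) -/
def valChar (u : LaurentSeries A) (Q : PlK) : intMonoid A N u →* kA :=
  if h : ∀ y : intMonoid A N u, ∃ b : kA, HasValue Q (intMonoid.elt y).sp b then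
    { toFun := fun y => (h y).choose
      map_one' := by
        refine hasValue_unique Q (h 1).choose_spec ?_
        rw [intMonoid.elt_sp_one]
        exact hasValue_one Q
      map_mul' := fun x y => by
        refine hasValue_unique Q (h (x * y)).choose_spec ?_
        rw [intMonoid.elt_sp_mul]
        exact HasValue.mul Q (h x).choose_spec (h y).choose_spec }
  else 1

theorem hasValue_valChar (u : LaurentSeries A) (Q : PlK)
    (h : ∀ y : intMonoid A N u, ∃ b : kA, HasValue Q (intMonoid.elt y).sp b)
    (y : intMonoid A N u) : HasValue Q (intMonoid.elt y).sp (valChar u Q y) := by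
  rw [valChar, dif_pos h]
  exact (h y).choose_spec

/-- abstract core of `msep_fin`/`msep_inf` -/
theorem msep_core (u : LaurentSeries A) (S S' : Multiset PlK)
    (hval : ∀ Q ∈ S + S', ∀ y : intMonoid A N u,
      ∃ b : kA, HasValue Q (intMonoid.elt y).sp b)
    (hsep : ∀ Q ∈ S + S', ∀ Q' ∈ S + S',
      (∀ (y : intMonoid A N u) (b : kA),
        HasValue Q (intMonoid.elt y).sp b → HasValue Q' (intMonoid.elt y).sp b) → Q = Q')
    (h : ∀ (y : intMonoid A N u) (v : PlK → kA),
      (∀ Q ∈ S + S', HasValue Q (intMonoid.elt y).sp (v Q)) → S.map v = S'.map v) :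
    S = S' := by
  refine multiset_eq_of_forall_map_eq (valChar u) S S' ?_ ?_
  · intro Q hQ Q' hQ' hQQ'
    refine hsep Q hQ Q' hQ' fun y b hb => ?_
    have h1 : b = valChar u Q y := hasValue_unique Q hb (hasValue_valChar u Q (hval Q hQ) y)
    rw [h1, hQQ']
    exact hasValue_valChar u Q' (hval Q' hQ') y
  · intro y
    exact h y (fun Q => valChar u Q y) fun Q hQ => hasValue_valChar u Q (hval Q hQ) y

/-- **Multiset separation, finite chart.** -/
theorem msep_fin [NeZero N] (G : GeoRed A N) (j : IntElt A N) (hj : j.y = jqModC A)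
    (S S' : Multiset PlK)
    (hval : ∀ Q ∈ S + S', ∀ c : IntElt A N, c.IsFin → ∃ b : kA, HasValue Q c.sp b)
    (h : ∀ c : IntElt A N, c.IsFin → ∀ v : PlK → kA,
      (∀ Q ∈ S + S', HasValue Q c.sp (v Q)) → S.map v = S'.map v) :
    S = S' := by
  have hjfin : j.IsFin := by
    refine ⟨Polynomial.X - Polynomial.C Polynomial.X, Polynomial.monic_X_sub_C _, ?_⟩
    rw [Polynomial.eval₂_sub, Polynomial.eval₂_X, Polynomial.eval₂_C, hj]
    simp [evalSeries]
  refine msep_core (jqModC A) S S'
    (fun Q hQ y => hval Q hQ _ (intMonoid.elt_isFin y)) ?_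
    (fun y v hv => h _ (intMonoid.elt_isFin y) v hv)
  intro Q hQ Q' _ hQQ'
  obtain ⟨a, ha⟩ := hval Q hQ j hjfin
  refine G.sep_fin j hj Q Q' a ha fun c hc b hb => ?_
  exact hQQ' ⟨c.y, intMonoid.mem_of_isFin hc⟩ b hb

/-- **Multiset separation, chart at infinity.** -/
theorem msep_inf [NeZero N] (G : GeoRed A N) (j : IntElt A N) (hj : j.y * jqModC A = 1)
    (S S' : Multiset PlK)
    (hval : ∀ Q ∈ S + S', ∀ c : IntElt A N, c.IsInf → ∃ b : kA, HasValue Q c.sp b)
    (h : ∀ c : IntElt A N, c.IsInf → ∀ v : PlK → kA,
      (∀ Q ∈ S + S', HasValue Q c.sp (v Q)) → S.map v = S'.map v) :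
    S = S' := by
  have hjinf : j.IsInf := by
    refine ⟨j.y, hj, Polynomial.X - Polynomial.C Polynomial.X, Polynomial.monic_X_sub_C _, ?_⟩
    rw [Polynomial.eval₂_sub, Polynomial.eval₂_X, Polynomial.eval₂_C]
    simp [evalSeries]
  refine msep_core j.y S S'
    (fun Q hQ y => hval Q hQ _ (intMonoid.elt_isInf hj y)) ?_
    (fun y v hv => h _ (intMonoid.elt_isInf hj y) v hv)
  intro Q hQ Q' _ hQQ'
  obtain ⟨a, ha⟩ := hval Q hQ j hjinf
  refine G.sep_inf j hj Q Q' a ha fun c hc b hb => ?_
  exact hQQ' ⟨c.y, intMonoid.mem_of_isInf hj hc⟩ b hb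

/-- polynomial form of the hypothesis: equal products give equal value multisets -/
theorem map_eq_of_prod_X_sub_C_eq {k X : Type*} [Field k] (S S' : Multiset X) (v : X → k)
    (h : (S.map fun Q => (Polynomial.X - Polynomial.C (v Q) : Polynomial k)).prod =
      (S'.map fun Q => (Polynomial.X - Polynomial.C (v Q) : Polynomial k)).prod) : S.map v = S'.map v := by
  have h1 : ∀ R : Multiset X,
      (R.map fun Q => (Polynomial.X - Polynomial.C (v Q) : Polynomial k)).prod.roots = R.map v := by
    intro R
    have : (R.map fun Q => (Polynomial.X - Polynomial.C (v Q) : Polynomial k)) =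
        (R.map v).map (fun a => (Polynomial.X - Polynomial.C a : Polynomial k)) := by
      rw [Multiset.map_map]
      rfl
    rw [this, Polynomial.roots_multiset_prod_X_sub_C]
  rw [← h1 S, ← h1 S', h]

/-- **Multiset separation, finite chart, polynomial form.** -/
theorem msep_fin_prod [NeZero N] (G : GeoRed A N) (j : IntElt A N) (hj : j.y = jqModC A)
    (S S' : Multiset PlK)
    (hval : ∀ Q ∈ S + S', ∀ c : IntElt A N, c.IsFin → ∃ b : kA, HasValue Q c.sp b)
    (h : ∀ c : IntElt A N, c.IsFin → ∀ v : PlK → kA,
      (∀ Q ∈ S + S', HasValue Q c.sp (v Q)) →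
        (S.map fun Q => (Polynomial.X - Polynomial.C (v Q) : Polynomial kA)).prod =
          (S'.map fun Q => (Polynomial.X - Polynomial.C (v Q) : Polynomial kA)).prod) :
    S = S' :=
  msep_fin G j hj S S' hval fun c hc v hv => map_eq_of_prod_X_sub_C_eq S S' v (h c hc v hv)

/-- **Multiset separation, chart at infinity, polynomial form.** -/
theorem msep_inf_prod [NeZero N] (G : GeoRed A N) (j : IntElt A N) (hj : j.y * jqModC A = 1)
    (S S' : Multiset PlK)
    (hval : ∀ Q ∈ S + S', ∀ c : IntElt A N, c.IsInf → ∃ b : kA, HasValue Q c.sp b)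
    (h : ∀ c : IntElt A N, c.IsInf → ∀ v : PlK → kA,
      (∀ Q ∈ S + S', HasValue Q c.sp (v Q)) →
        (S.map fun Q => (Polynomial.X - Polynomial.C (v Q) : Polynomial kA)).prod =
          (S'.map fun Q => (Polynomial.X - Polynomial.C (v Q) : Polynomial kA)).prod) :
    S = S' :=
  msep_inf G j hj S S' hval fun c hc v hv => map_eq_of_prod_X_sub_C_eq S S' v (h c hc v hv)

end Msep

end Fermat.Agent.S37.H758
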